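import Mathlib

/-!
# W2-C (S55), block D3 (helper12): Shapiro's lemma in degrees 1 and 2, explicitly on cocycles

`φ : D →* G` an injective homomorphism of groups, `W : Rep ℤ D`, `C = Rep.coind φ W`
(functions `f : G → W` with `f (φ d * g) = d • f g`, `G` acting by right translation).
Restriction along `φ` followed by evaluation at `1`:
`res₁ c = fun d => c (φ d) 1`, `res₂ c = fun (d₁, d₂) => c (φ d₁, φ d₂) 1`.

* `res₁_mem_cocycles₁`, `res₂_mem_cocycles₂`, `res₁_mem_coboundaries₁`, `res₂_mem_coboundaries₂`;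
* **SH-1** `sh1_inj` : a 1-cocycle `c` of `C` with `res₁ c` a coboundary is a coboundary
  (no hypothesis on `φ`);
* **SH-2** `sh2_inj` : a 2-cocycle `c` of `C` with `res₂ c` a coboundary is a coboundary
  (`φ` injective; prism homotopy along a `D`-equivariant retraction `δ : G → D`);
* `sh1_surj`, `sh2_surj` : every cocycle of `W` is `res c` for a cocycle `c` of `C`.
-/

set_option autoImplicit false
set_option linter.style.haveILetI false
set_option linter.unusedSectionVars false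

noncomputable section

namespace H12SH

open groupCohomology

section retraction

variable {G D : Type} [Group G] [Group D]

/-- a `D`-equivariant retraction `δ : G → D` of an injective homomorphism `φ : D →* G` -/
theorem exists_retraction (φ : D →* G) (hφ : Function.Injective φ) :
    ∃ δ : G → D, (∀ d g, δ (φ d * g) = d * δ g) ∧ δ 1 = 1 ∧ ∀ d, δ (φ d) = d := by
  classical
  -- representatives of the right cosets of `φ.range`
  let S : Subgroup G := φ.range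
  let r : G → G := fun g => (Quotient.mk (QuotientGroup.rightRel S) g).out
  have hr : ∀ g, g * (r g)⁻¹ ∈ S := fun g =>
    QuotientGroup.rightRel_apply.1 (Quotient.exact (Quotient.out_eq _))
  have hrd : ∀ (d : D) (g : G), r (φ d * g) = r g := by
    intro d g
    have : Quotient.mk (QuotientGroup.rightRel S) (φ d * g) =
        Quotient.mk (QuotientGroup.rightRel S) g := by
      apply Quotient.sound
      apply QuotientGroup.rightRel_apply.2
      have : g * (φ d * g)⁻¹ = φ d⁻¹ := by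
        rw [mul_inv_rev, mul_inv_cancel_left, map_inv]
      rw [this]
      exact ⟨d⁻¹, rfl⟩
    show (Quotient.mk (QuotientGroup.rightRel S) (φ d * g)).out = _
    rw [this]
  choose δ₀ hδ₀ using fun g => hr g
  have hδ₀' : ∀ d g, δ₀ (φ d * g) = d * δ₀ g := by
    intro d g
    apply hφ
    rw [hδ₀, hrd, map_mul, hδ₀, mul_assoc]
  refine ⟨fun g => δ₀ g * (δ₀ 1)⁻¹, fun d g => ?_, ?_, fun d => ?_⟩
  · show δ₀ (φ d * g) * (δ₀ 1)⁻¹ = d * (δ₀ g * (δ₀ 1)⁻¹)
    rw [hδ₀', mul_assoc]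
  · show δ₀ 1 * (δ₀ 1)⁻¹ = 1
    exact mul_inv_cancel _
  · show δ₀ (φ d) * (δ₀ 1)⁻¹ = d
    have := hδ₀' d 1
    rw [mul_one] at this
    rw [this, mul_assoc, mul_inv_cancel, mul_one]

end retraction

section homogeneous

/-- the prism identity: pure algebra in an abelian group -/
theorem prism {X M : Type*} [AddCommGroup M] (F : X → X → X → M) (y : X → X) (B : X → X → M)
    (hF : ∀ a b c e, F b c e + F a b e = F a c e + F a b c)
    (hB : ∀ a b e, F (y a) (y b) (y e) = B b e - B a e + B a b) (x₀ x₁ x₂ : X) :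
    F x₀ x₁ x₂ =
      (-F x₁ (y x₁) (y x₂) + F x₁ x₂ (y x₂) + B x₁ x₂) -
      (-F x₀ (y x₀) (y x₂) + F x₀ x₂ (y x₂) + B x₀ x₂) +
      (-F x₀ (y x₀) (y x₁) + F x₀ x₁ (y x₁) + B x₀ x₁) := by
  have h1 := hF x₀ x₁ x₂ (y x₂)
  have h2 := hF x₀ x₁ (y x₁) (y x₂)
  have h3 := hF x₀ (y x₀) (y x₁) (y x₂)
  have h4 := hB x₀ x₁ x₂
  have e1 : F x₁ x₂ (y x₂) = F x₀ x₂ (y x₂) + F x₀ x₁ x₂ - F x₀ x₁ (y x₂) :=
    eq_sub_of_add_eq h1
  have e2 : F x₁ (y x₁) (y x₂) = F x₀ (y x₁) (y x₂) + F x₀ x₁ (y x₁) - F x₀ x₁ (y x₂) :=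
    eq_sub_of_add_eq h2
  have e3 : F (y x₀) (y x₁) (y x₂) =
      F x₀ (y x₁) (y x₂) + F x₀ (y x₀) (y x₁) - F x₀ (y x₀) (y x₂) :=
    eq_sub_of_add_eq h3
  have e4 : B x₁ x₂ - B x₀ x₂ + B x₀ x₁ =
      F x₀ (y x₁) (y x₂) + F x₀ (y x₀) (y x₁) - F x₀ (y x₀) (y x₂) := by
    rw [← h4, e3]
  have e5 : B x₁ x₂ = F x₀ (y x₁) (y x₂) + F x₀ (y x₀) (y x₁) - F x₀ (y x₀) (y x₂)
      + B x₀ x₂ - B x₀ x₁ := by
    rw [← e4]; abel
  rw [e1, e2, e5]
  abel

end homogeneous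

section main

variable {k : Type} [CommRing k] {G D : Type} [Group G] [Group D] (φ : D →* G) (W : Rep.{0} k D)

/-- restriction along `φ` and evaluation at `1`, on 1-cochains -/
def res₁ (c : G → Rep.coind φ W) : D → W := fun d => (c (φ d)).1 1

/-- restriction along `φ` and evaluation at `1`, on 2-cochains -/
def res₂ (c : G × G → Rep.coind φ W) : D × D → W := fun p => (c (φ p.1, φ p.2)).1 1

variable {φ W}

theorem coind_ρ_apply (g : G) (f : Rep.coind φ W) (x : G) :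
    ((Rep.coind φ W).ρ g f).1 x = f.1 (x * g) := rfl

theorem coind_equiv (f : Rep.coind φ W) (d : D) (x : G) :
    f.1 (φ d * x) = W.ρ d (f.1 x) := f.2 d x

theorem coind_add_apply (f f' : Rep.coind φ W) (x : G) : (f + f').1 x = f.1 x + f'.1 x := rfl

theorem coind_sub_apply (f f' : Rep.coind φ W) (x : G) : (f - f').1 x = f.1 x - f'.1 x := rfl

theorem coind_neg_apply (f : Rep.coind φ W) (x : G) : (-f).1 x = -f.1 x := rfl

theorem coind_ext {f f' : Rep.coind φ W} (h : ∀ x, f.1 x = f'.1 x) : f = f' :=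
  Subtype.ext (funext h)

/-! ### degree 1 -/

theorem cocycle₁_apply {c : G → Rep.coind φ W} (hc : c ∈ cocycles₁ (Rep.coind φ W))
    (g h x : G) : (c (g * h)).1 x = (c h).1 (x * g) + (c g).1 x := by
  have := (mem_cocycles₁_iff c).1 hc g h
  rw [this, coind_add_apply, coind_ρ_apply]

theorem res₁_mem_cocycles₁ {c : G → Rep.coind φ W} (hc : c ∈ cocycles₁ (Rep.coind φ W)) :
    res₁ φ W c ∈ cocycles₁ W := by
  rw [mem_cocycles₁_iff]
  intro d d'
  show (c (φ (d * d'))).1 1 = W.ρ d ((c (φ d')).1 1) + (c (φ d)).1 1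
  rw [map_mul, cocycle₁_apply hc, one_mul, ← coind_equiv, mul_one]

theorem res₁_mem_coboundaries₁ {c : G → Rep.coind φ W}
    (hc : c ∈ coboundaries₁ (Rep.coind φ W)) : res₁ φ W c ∈ coboundaries₁ W := by
  obtain ⟨f, rfl⟩ := hc
  refine ⟨f.1 1, ?_⟩
  funext d
  show W.ρ d (f.1 1) - f.1 1 = ((Rep.coind φ W).ρ (φ d) f - f).1 1
  rw [coind_sub_apply, coind_ρ_apply, one_mul, ← coind_equiv, mul_one]

/-- **SH-1 (injectivity)** -/
theorem sh1_inj {c : G → Rep.coind φ W} (hc : c ∈ cocycles₁ (Rep.coind φ W))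
    (h : res₁ φ W c ∈ coboundaries₁ W) : c ∈ coboundaries₁ (Rep.coind φ W) := by
  obtain ⟨w, hw⟩ := h
  have hw' : ∀ d : D, (c (φ d)).1 1 = W.ρ d w - w := fun d => (congrFun hw d).symm
  let F : Rep.coind φ W := ⟨fun g => (c g).1 1 + w, by
    intro d g
    show (c (φ d * g)).1 1 + w = W.ρ d ((c g).1 1 + w)
    rw [cocycle₁_apply hc, one_mul, hw', map_add, ← coind_equiv, mul_one]
    abel⟩
  refine ⟨F, ?_⟩
  funext g
  apply coind_ext
  intro x
  show ((Rep.coind φ W).ρ g F - F).1 x = (c g).1 x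
  rw [coind_sub_apply, coind_ρ_apply]
  show (c (x * g)).1 1 + w - ((c x).1 1 + w) = (c g).1 x
  rw [cocycle₁_apply hc, one_mul]
  abel

/-! ### degree 2 -/

theorem cocycle₂_apply {c : G × G → Rep.coind φ W} (hc : c ∈ cocycles₂ (Rep.coind φ W))
    (g h j x : G) :
    (c (g * h, j)).1 x + (c (g, h)).1 x = (c (h, j)).1 (x * g) + (c (g, h * j)).1 x := by
  have h1 : (c (g * h, j) + c (g, h)).1 x =
      ((Rep.coind φ W).ρ g (c (h, j)) + c (g, h * j)).1 x := by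
    rw [(mem_cocycles₂_iff c).1 hc g h j]
  rw [coind_add_apply, coind_add_apply, coind_ρ_apply] at h1
  exact h1

/-- the homogeneous form of a 2-cochain, evaluated at `1` -/
def hom₂ (c : G × G → Rep.coind φ W) (a b e : G) : W := (c (a⁻¹ * b, b⁻¹ * e)).1 a

theorem hom₂_cocycle {c : G × G → Rep.coind φ W} (hc : c ∈ cocycles₂ (Rep.coind φ W))
    (a b e f : G) : hom₂ c b e f + hom₂ c a b f = hom₂ c a e f + hom₂ c a b e := by
  have := cocycle₂_apply hc (a⁻¹ * b) (b⁻¹ * e) (e⁻¹ * f) a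
  simp only [hom₂]
  have e1 : a⁻¹ * b * (b⁻¹ * e) = a⁻¹ * e := by group
  have e2 : b⁻¹ * e * (e⁻¹ * f) = b⁻¹ * f := by group
  have e3 : a * (a⁻¹ * b) = b := by group
  rw [e1, e2, e3] at this
  rw [← this]

theorem hom₂_equiv (c : G × G → Rep.coind φ W) (d : D) (a b e : G) :
    hom₂ c (φ d * a) (φ d * b) (φ d * e) = W.ρ d (hom₂ c a b e) := by
  simp only [hom₂]
  have e1 : (φ d * a)⁻¹ * (φ d * b) = a⁻¹ * b := by group
  have e2 : (φ d * b)⁻¹ * (φ d * e) = b⁻¹ * e := by group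
  rw [e1, e2, coind_equiv]

theorem apply_eq_hom₂ (c : G × G → Rep.coind φ W) (g h x : G) :
    (c (g, h)).1 x = hom₂ c x (x * g) (x * g * h) := by
  simp only [hom₂]
  have e1 : x⁻¹ * (x * g) = g := by group
  have e2 : (x * g)⁻¹ * (x * g * h) = h := by group
  rw [e1, e2]

theorem res₂_mem_cocycles₂ {c : G × G → Rep.coind φ W}
    (hc : c ∈ cocycles₂ (Rep.coind φ W)) : res₂ φ W c ∈ cocycles₂ W := by
  rw [mem_cocycles₂_iff]
  intro d d' d''
  show (c (φ (d * d'), φ d'')).1 1 + (c (φ d, φ d')).1 1 =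
    W.ρ d ((c (φ d', φ d'')).1 1) + (c (φ d, φ (d' * d''))).1 1
  rw [map_mul, map_mul, cocycle₂_apply hc, one_mul, ← coind_equiv, mul_one]

theorem res₂_mem_coboundaries₂ {c : G × G → Rep.coind φ W}
    (hc : c ∈ coboundaries₂ (Rep.coind φ W)) : res₂ φ W c ∈ coboundaries₂ W := by
  obtain ⟨f, rfl⟩ := hc
  refine ⟨fun d => (f (φ d)).1 1, ?_⟩
  funext p
  show W.ρ p.1 ((f (φ p.2)).1 1) - (f (φ (p.1 * p.2))).1 1 + (f (φ p.1)).1 1 =
    ((Rep.coind φ W).ρ (φ p.1) (f (φ p.2)) - f (φ p.1 * φ p.2) + f (φ p.1)).1 1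
  rw [coind_add_apply, coind_sub_apply, coind_ρ_apply, one_mul, ← coind_equiv, mul_one, map_mul]

/-- **SH-2 (injectivity)** -/
theorem sh2_inj (hφ : Function.Injective φ) {c : G × G → Rep.coind φ W}
    (hc : c ∈ cocycles₂ (Rep.coind φ W))
    (h : res₂ φ W c ∈ coboundaries₂ W) : c ∈ coboundaries₂ (Rep.coind φ W) := by
  obtain ⟨β, hβ⟩ := h
  have hβ' : ∀ d d' : D, (c (φ d, φ d')).1 1 = W.ρ d (β d') - β (d * d') + β d :=
    fun d d' => (congrFun hβ (d, d')).symm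
  obtain ⟨δ, hδ, -, -⟩ := exists_retraction φ hφ
  -- homogeneous data
  let y : G → G := fun x => φ (δ x)
  let B : G → G → W := fun a b => W.ρ (δ a) (β ((δ a)⁻¹ * δ b))
  have hy : ∀ (d : D) (x : G), y (φ d * x) = φ d * y x := fun d x => by
    show φ (δ (φ d * x)) = φ d * φ (δ x)
    rw [hδ, map_mul]
  have hBeq : ∀ (d : D) (a b : G), B (φ d * a) (φ d * b) = W.ρ d (B a b) := fun d a b => by
    show W.ρ (δ (φ d * a)) (β ((δ (φ d * a))⁻¹ * δ (φ d * b))) =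
      W.ρ d (W.ρ (δ a) (β ((δ a)⁻¹ * δ b)))
    rw [hδ, hδ, map_mul, Module.End.mul_apply]
    congr 3
    group
  have hB : ∀ a b e, hom₂ c (y a) (y b) (y e) = B b e - B a e + B a b := by
    intro a b e
    show (c ((φ (δ a))⁻¹ * φ (δ b), (φ (δ b))⁻¹ * φ (δ e))).1 (φ (δ a)) = _
    have e1 : (φ (δ a))⁻¹ * φ (δ b) = φ ((δ a)⁻¹ * δ b) := by rw [map_mul, map_inv]
    have e2 : (φ (δ b))⁻¹ * φ (δ e) = φ ((δ b)⁻¹ * δ e) := by rw [map_mul, map_inv]
    have e3 : φ (δ a) = φ (δ a) * 1 := (mul_one _).symm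
    rw [e1, e2, e3, coind_equiv, hβ', map_add, map_sub]
    show W.ρ (δ a) (W.ρ ((δ a)⁻¹ * δ b) (β ((δ b)⁻¹ * δ e))) -
      W.ρ (δ a) (β ((δ a)⁻¹ * δ b * ((δ b)⁻¹ * δ e))) + W.ρ (δ a) (β ((δ a)⁻¹ * δ b)) =
      W.ρ (δ b) (β ((δ b)⁻¹ * δ e)) - W.ρ (δ a) (β ((δ a)⁻¹ * δ e)) +
        W.ρ (δ a) (β ((δ a)⁻¹ * δ b))
    have e4 : (δ a)⁻¹ * δ b * ((δ b)⁻¹ * δ e) = (δ a)⁻¹ * δ e := by group
    have e5 : W.ρ (δ a) (W.ρ ((δ a)⁻¹ * δ b) (β ((δ b)⁻¹ * δ e))) =
        W.ρ (δ b) (β ((δ b)⁻¹ * δ e)) := by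
      rw [← Module.End.mul_apply, ← map_mul, mul_inv_cancel_left]
    rw [e4, e5]
  -- the 1-cochain
  let Φ : G → G → W := fun a b => -hom₂ c a (y a) (y b) + hom₂ c a b (y b) + B a b
  have hΦeq : ∀ (d : D) (a b : G), Φ (φ d * a) (φ d * b) = W.ρ d (Φ a b) := fun d a b => by
    show -hom₂ c (φ d * a) (y (φ d * a)) (y (φ d * b)) +
      hom₂ c (φ d * a) (φ d * b) (y (φ d * b)) + B (φ d * a) (φ d * b) =
      W.ρ d (-hom₂ c a (y a) (y b) + hom₂ c a b (y b) + B a b)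
    rw [hy, hy, hom₂_equiv, hom₂_equiv, hBeq, map_add, map_add, map_neg]
  let ψ : G → Rep.coind φ W := fun g => ⟨fun x => Φ x (x * g), by
    intro d x
    show Φ (φ d * x) (φ d * x * g) = W.ρ d (Φ x (x * g))
    rw [mul_assoc, hΦeq]⟩
  refine ⟨ψ, ?_⟩
  funext p
  obtain ⟨g, h⟩ := p
  apply coind_ext
  intro x
  show ((Rep.coind φ W).ρ g (ψ h) - ψ (g * h) + ψ g).1 x = (c (g, h)).1 x
  rw [coind_add_apply, coind_sub_apply, coind_ρ_apply, apply_eq_hom₂]
  show Φ (x * g) (x * g * h) - Φ x (x * (g * h)) + Φ x (x * g) = _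
  rw [← mul_assoc]
  exact (prism (hom₂ c) y B (hom₂_cocycle hc) hB x (x * g) (x * g * h)).symm

/-! ### surjectivity -/

/-- **SH-1 (surjectivity)** -/
theorem sh1_surj (hφ : Function.Injective φ) {b : D → W} (hb : b ∈ cocycles₁ W) :
    ∃ c ∈ cocycles₁ (Rep.coind φ W), res₁ φ W c = b := by
  obtain ⟨δ, hδ, hδ1, hδφ⟩ := exists_retraction φ hφ
  have hb' := (mem_cocycles₁_iff b).1 hb
  let B : G → G → W := fun a e => W.ρ (δ a) (b ((δ a)⁻¹ * δ e))
  have hBeq : ∀ (d : D) (a e : G), B (φ d * a) (φ d * e) = W.ρ d (B a e) := fun d a e => by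
    show W.ρ (δ (φ d * a)) (b ((δ (φ d * a))⁻¹ * δ (φ d * e))) =
      W.ρ d (W.ρ (δ a) (b ((δ a)⁻¹ * δ e)))
    rw [hδ, hδ, map_mul, Module.End.mul_apply]
    congr 3
    group
  have hBc : ∀ a e f, B a f = B e f + B a e := by
    intro a e f
    show W.ρ (δ a) (b ((δ a)⁻¹ * δ f)) =
      W.ρ (δ e) (b ((δ e)⁻¹ * δ f)) + W.ρ (δ a) (b ((δ a)⁻¹ * δ e))
    have e1 : (δ a)⁻¹ * δ f = ((δ a)⁻¹ * δ e) * ((δ e)⁻¹ * δ f) := by group
    rw [e1, hb', map_add, ← Module.End.mul_apply, ← map_mul, mul_inv_cancel_left]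
  let c : G → Rep.coind φ W := fun g => ⟨fun x => B x (x * g), by
    intro d x
    show B (φ d * x) (φ d * x * g) = W.ρ d (B x (x * g))
    rw [mul_assoc, hBeq]⟩
  refine ⟨c, ?_, ?_⟩
  · rw [mem_cocycles₁_iff]
    intro g h
    apply coind_ext
    intro x
    show B x (x * (g * h)) = ((Rep.coind φ W).ρ g (c h) + c g).1 x
    rw [coind_add_apply, coind_ρ_apply]
    show B x (x * (g * h)) = B (x * g) (x * g * h) + B x (x * g)
    rw [← mul_assoc]
    exact hBc _ _ _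
  · funext d
    show W.ρ (δ 1) (b ((δ 1)⁻¹ * δ (1 * φ d))) = b d
    rw [one_mul, hδ1, hδφ, inv_one, one_mul, map_one, Module.End.one_apply]

/-- **SH-2 (surjectivity)** -/
theorem sh2_surj (hφ : Function.Injective φ) {b : D × D → W} (hb : b ∈ cocycles₂ W) :
    ∃ c ∈ cocycles₂ (Rep.coind φ W), res₂ φ W c = b := by
  obtain ⟨δ, hδ, hδ1, hδφ⟩ := exists_retraction φ hφ
  have hb' := (mem_cocycles₂_iff b).1 hb
  let B : G → G → G → W := fun a e f =>
    W.ρ (δ a) (b ((δ a)⁻¹ * δ e, (δ e)⁻¹ * δ f))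
  have hBeq : ∀ (d : D) (a e f : G), B (φ d * a) (φ d * e) (φ d * f) = W.ρ d (B a e f) :=
    fun d a e f => by
    show W.ρ (δ (φ d * a)) (b ((δ (φ d * a))⁻¹ * δ (φ d * e),
      (δ (φ d * e))⁻¹ * δ (φ d * f))) = W.ρ d (W.ρ (δ a) (b ((δ a)⁻¹ * δ e, (δ e)⁻¹ * δ f)))
    rw [hδ, hδ, hδ, map_mul, Module.End.mul_apply]
    have e1 : (d * δ a)⁻¹ * (d * δ e) = (δ a)⁻¹ * δ e := by group
    have e2 : (d * δ e)⁻¹ * (d * δ f) = (δ e)⁻¹ * δ f := by group
    rw [e1, e2]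
  have hBc : ∀ a e f k, B a f k + B a e f = B e f k + B a e k := by
    intro a e f k
    show W.ρ (δ a) (b ((δ a)⁻¹ * δ f, (δ f)⁻¹ * δ k)) +
      W.ρ (δ a) (b ((δ a)⁻¹ * δ e, (δ e)⁻¹ * δ f)) =
      W.ρ (δ e) (b ((δ e)⁻¹ * δ f, (δ f)⁻¹ * δ k)) +
      W.ρ (δ a) (b ((δ a)⁻¹ * δ e, (δ e)⁻¹ * δ k))
    have h1 := hb' ((δ a)⁻¹ * δ e) ((δ e)⁻¹ * δ f) ((δ f)⁻¹ * δ k)
    have e1 : (δ a)⁻¹ * δ e * ((δ e)⁻¹ * δ f) = (δ a)⁻¹ * δ f := by group
    have e2 : (δ e)⁻¹ * δ f * ((δ f)⁻¹ * δ k) = (δ e)⁻¹ * δ k := by group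
    rw [e1, e2] at h1
    rw [← map_add, h1, map_add, ← Module.End.mul_apply, ← map_mul, mul_inv_cancel_left]
  let c : G × G → Rep.coind φ W := fun p => ⟨fun x => B x (x * p.1) (x * p.1 * p.2), by
    intro d x
    show B (φ d * x) (φ d * x * p.1) (φ d * x * p.1 * p.2) =
      W.ρ d (B x (x * p.1) (x * p.1 * p.2))
    rw [mul_assoc, mul_assoc, mul_assoc, ← mul_assoc x, hBeq]⟩
  refine ⟨c, ?_, ?_⟩
  · rw [mem_cocycles₂_iff]
    intro g h j
    apply coind_ext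
    intro x
    show (c (g * h, j) + c (g, h)).1 x = ((Rep.coind φ W).ρ g (c (h, j)) + c (g, h * j)).1 x
    rw [coind_add_apply, coind_add_apply, coind_ρ_apply]
    show B x (x * (g * h)) (x * (g * h) * j) + B x (x * g) (x * g * h) =
      B (x * g) (x * g * h) (x * g * h * j) + B x (x * g) (x * g * (h * j))
    rw [← mul_assoc, ← mul_assoc]
    exact hBc _ _ _ _
  · funext p
    show W.ρ (δ 1) (b ((δ 1)⁻¹ * δ (1 * φ p.1), (δ (1 * φ p.1))⁻¹ * δ (1 * φ p.1 * φ p.2))) =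
      b p
    rw [one_mul, hδ1, hδφ, inv_one, one_mul, map_one, Module.End.one_apply, ← map_mul, hδφ,
      inv_mul_cancel_left]

end main

/-! ### Export: the map `H^i(G, coind φ W) → H^i(D, W)` of Mathlib -/

section mapForm

open CategoryTheory

variable {k : Type} [CommRing k] {G D : Type} [Group G] [Group D] (φ : D →* G)
  (W : Rep.{0} k D)

/-- evaluation at `1`, as a morphism of representations `Res_φ (coind φ W) ⟶ W` -/
def ev : Rep.res φ (Rep.coind φ W) ⟶ W :=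
  (Rep.resCoindHomEquiv φ (Rep.coind φ W) W).symm (𝟙 _)

theorem ev_apply (f : Rep.coind φ W) : (ev φ W).hom f = f.1 1 := rfl

theorem coe_mapCocycles₁_ev (c : cocycles₁ (Rep.coind φ W)) :
    ⇑(mapCocycles₁ φ (ev φ W) c) = res₁ φ W c := rfl

theorem coe_mapCocycles₂_ev (c : cocycles₂ (Rep.coind φ W)) :
    ⇑(mapCocycles₂ φ (ev φ W) c) = res₂ φ W c := rfl

/-- **SH-1**: `H¹(G, coind φ W) → H¹(D, W)` is injective. -/
theorem map_injective₁ : Function.Injective (map φ (ev φ W) 1) := by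
  rw [injective_iff_map_eq_zero]
  intro x hx
  induction x using H1_induction_on with
  | h c =>
    rw [H1π_comp_map_apply, H1π_eq_zero_iff, coe_mapCocycles₁_ev] at hx
    rw [H1π_eq_zero_iff]
    exact sh1_inj c.2 hx

/-- **SH-2**: `H²(G, coind φ W) → H²(D, W)` is injective (`φ` injective). -/
theorem map_injective₂ (hφ : Function.Injective φ) :
    Function.Injective (map φ (ev φ W) 2) := by
  rw [injective_iff_map_eq_zero]
  intro x hx
  induction x using H2_induction_on with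
  | h c =>
    rw [H2π_comp_map_apply, H2π_eq_zero_iff, coe_mapCocycles₂_ev] at hx
    rw [H2π_eq_zero_iff]
    exact sh2_inj hφ c.2 hx

/-- `H¹(G, coind φ W) → H¹(D, W)` is surjective (`φ` injective). -/
theorem map_surjective₁ (hφ : Function.Injective φ) :
    Function.Surjective (map φ (ev φ W) 1) := by
  intro x
  induction x using H1_induction_on with
  | h b =>
    obtain ⟨c, hc, hcb⟩ := sh1_surj (φ := φ) hφ b.2
    refine ⟨H1π _ ⟨c, hc⟩, ?_⟩
    rw [H1π_comp_map_apply]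
    congr 1
    apply Subtype.ext
    rw [← hcb]
    rfl

/-- `H²(G, coind φ W) → H²(D, W)` is surjective (`φ` injective). -/
theorem map_surjective₂ (hφ : Function.Injective φ) :
    Function.Surjective (map φ (ev φ W) 2) := by
  intro x
  induction x using H2_induction_on with
  | h b =>
    obtain ⟨c, hc, hcb⟩ := sh2_surj (φ := φ) hφ b.2
    refine ⟨H2π _ ⟨c, hc⟩, ?_⟩
    rw [H2π_comp_map_apply]
    congr 1
    apply Subtype.ext
    rw [← hcb]
    rfl

theorem map_bijective₁ (hφ : Function.Injective φ) :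
    Function.Bijective (map φ (ev φ W) 1) := ⟨map_injective₁ φ W, map_surjective₁ φ W hφ⟩

theorem map_bijective₂ (hφ : Function.Injective φ) :
    Function.Bijective (map φ (ev φ W) 2) := ⟨map_injective₂ φ W hφ, map_surjective₂ φ W hφ⟩

end mapForm

end H12SH
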